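import Fermat.Agent.AbVarTors.Birational.Local

/-!
# Affine charts inside the function field

For finite generators of the sections over an affine chart (`IsGensOf`): regular functions at a
point are fractions of sections (`IsGensOf.loc_eq_frac`), homomorphisms are points
(`IsGensOf.exists_point`), and a chart with integral values contains the specialisation
(`IsGensOf.mem_locSub_specPt`). Finitely many standard smooth charts cover (`exists_charts`), and
each determines the function field (`fg_and_trdeg_of_gens`).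
-/

set_option autoImplicit false
set_option linter.style.haveILetI false
set_option linter.unusedSectionVars false
set_option linter.overlappingInstances false

noncomputable section

open CategoryTheory CategoryTheory.Limits AlgebraicGeometry NeronModelInfra GoodReductionJacobian

universe u

namespace FLTAgent.AbVarTors.Bir

variable {K : Type u} [Field K] {A : Scheme.{u}} (f : A ⟶ Spec (CommRingCat.of K)) [IsIntegral A]
  [IsSeparated f]

/-- Sections inside the function field. -/
def secF (U : A.Opens) [Nonempty U] : Γ(A, U) ⟶ CommRingCat.of (FFun f) :=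
  A.germToFunctionField U

theorem secF_injective (U : A.Opens) [Nonempty U] : Function.Injective (secF f U).hom :=
  A.germToFunctionField_injective U

theorem germ_toF (U : A.Opens) [Nonempty U] (x : A) (hx : x ∈ U) :
    A.presheaf.germ U x hx ≫ toF f x = secF f U :=
  A.presheaf.germ_stalkSpecializes hx _

theorem toF_germ (U : A.Opens) [Nonempty U] (x : A) (hx : x ∈ U) (s : Γ(A, U)) :
    (toF f x).hom ((A.presheaf.germ U x hx).hom s) = (secF f U).hom s :=
  congrArg (fun k : Γ(A, U) ⟶ CommRingCat.of (FFun f) => k.hom s) (germ_toF f U x hx)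

theorem secF_mem_locSub (U : A.Opens) [Nonempty U] (x : A) (hx : x ∈ U) (s : Γ(A, U)) :
    (secF f U).hom s ∈ locSub f x :=
  ⟨(A.presheaf.germ U x hx).hom s, toF_germ f U x hx s⟩

/-- The structure map of the sections over an affine open. -/
def secK {U : A.Opens} (hU : IsAffineOpen U) : CommRingCat.of K ⟶ Γ(A, U) :=
  Spec.preimage (hU.fromSpec ≫ f)

theorem specMap_secF {U : A.Opens} (hU : IsAffineOpen U) [Nonempty U] :
    Spec.map (secF f U) ≫ hU.fromSpec = genPt f :=
  hU.fromSpecStalk_eq_fromSpecStalk _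

theorem secK_secF {U : A.Opens} (hU : IsAffineOpen U) [Nonempty U] :
    secK f hU ≫ secF f U = CommRingCat.ofHom (algebraMap K (FFun f)) := by
  apply Spec.map_injective
  rw [Spec.map_comp, secK, Spec.map_preimage, ← Category.assoc, specMap_secF,
    RingHom.algebraMap_toAlgebra, CommRingCat.ofHom_hom, Spec.map_preimage]

theorem secK_eq {U : A.Opens} (hU : IsAffineOpen U) (e : U ≤ f ⁻¹ᵁ ⊤) :
    secK f hU = (Scheme.ΓSpecIso (CommRingCat.of K)).inv ≫ f.appLE ⊤ U e := by
  apply Spec.map_injective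
  rw [Spec.map_comp, secK, Spec.map_preimage,
    ← IsAffineOpen.SpecMap_appLE_fromSpec f (isAffineOpen_top _) hU e, IsAffineOpen.fromSpec_top,
    Scheme.isoSpec_Spec_inv]

/-- An open containing `x` when its sections are regular at `x`. -/
theorem mem_of_forall_mem_locSub {U : A.Opens} (hU : IsAffineOpen U) [Nonempty U] {x : A}
    (h : ∀ s, (secF f U).hom s ∈ locSub f x) : x ∈ U := by
  let φ : Γ(A, U) ⟶ A.presheaf.stalk x := CommRingCat.ofHom
    { toFun := fun s => germAt f _ (h s)
      map_one' := germAt_eq f ((map_one (toF f x).hom).trans (map_one (secF f U).hom).symm)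
      map_mul' := fun a b => germAt_eq f (((map_mul (toF f x).hom _ _).trans
        (congrArg₂ (· * ·) (toF_germAt f _ _) (toF_germAt f _ _))).trans
        (map_mul (secF f U).hom a b).symm)
      map_zero' := germAt_eq f ((map_zero (toF f x).hom).trans (map_zero (secF f U).hom).symm)
      map_add' := fun a b => germAt_eq f (((map_add (toF f x).hom _ _).trans
        (congrArg₂ (· + ·) (toF_germAt f _ _) (toF_germAt f _ _))).trans
        (map_add (secF f U).hom a b).symm) }
  have hφ : φ ≫ toF f x = secF f U :=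
    CommRingCat.hom_ext <| RingHom.ext fun s => toF_germAt f _ (h s)
  have key : A.fromSpecStalk x = Spec.map φ ≫ hU.fromSpec :=
    eq_of_generic f (toF f x) (toF_injective f x) (by
      rw [specMap_toF, ← Category.assoc, ← Spec.map_comp, hφ, specMap_secF])
  have h1 : (A.fromSpecStalk x) (IsLocalRing.closedPoint _) ∈ Set.range hU.fromSpec :=
    ⟨(Spec.map φ) (IsLocalRing.closedPoint _), (Scheme.Hom.comp_apply _ _ _).symm.trans
      (congrArg (fun q : Spec (A.presheaf.stalk x) ⟶ A => q (IsLocalRing.closedPoint _)) key.symm)⟩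
  rw [IsAffineOpen.range_fromSpec, Scheme.fromSpecStalk_closedPoint] at h1
  exact h1

variable {E : Type u} [Field E]

theorem ptOf_mem_of_factor {U : A.Opens} (hU : IsAffineOpen U)
    {p : Spec (CommRingCat.of E) ⟶ A} {φ : Γ(A, U) ⟶ CommRingCat.of E}
    (hφ : p = Spec.map φ ≫ hU.fromSpec) : ptOf p ∈ U := by
  have h1 : ptOf p ∈ Set.range hU.fromSpec :=
    ⟨(Spec.map φ) (IsLocalRing.closedPoint E), by
      subst hφ
      exact (Scheme.Hom.comp_apply _ _ _).symm⟩
  rwa [IsAffineOpen.range_fromSpec] at h1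

theorem specMap_germ_evHom {U : A.Opens} (hU : IsAffineOpen U)
    (p : Spec (CommRingCat.of E) ⟶ A) (hx : ptOf p ∈ U) :
    Spec.map (A.presheaf.germ U (ptOf p) hx ≫ evHom p) ≫ hU.fromSpec = p := by
  rw [Spec.map_comp, Category.assoc,
    show Spec.map (A.presheaf.germ U (ptOf p) hx) ≫ hU.fromSpec = A.fromSpecStalk (ptOf p) from
      hU.fromSpecStalk_eq_fromSpecStalk hx, specMap_evHom]

theorem germ_evHom_eq {U : A.Opens} (hU : IsAffineOpen U) {p : Spec (CommRingCat.of E) ⟶ A}
    {φ : Γ(A, U) ⟶ CommRingCat.of E} (hφ : p = Spec.map φ ≫ hU.fromSpec) :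
    A.presheaf.germ U (ptOf p) (ptOf_mem_of_factor hU hφ) ≫ evHom p = φ := by
  refine Spec.map_injective ((cancel_mono hU.fromSpec).mp ?_)
  rw [specMap_germ_evHom hU p]
  exact hφ

variable [Algebra K E] {f}

/-- The value of a section at a point. -/
theorem evPt_secF (p : SchemeHomOver (tOf (K := K) E) f) (U : A.Opens) [Nonempty U]
    (hx : ptOf p.1 ∈ U) (s : Γ(A, U)) (h : (secF f U).hom s ∈ locSub f (ptOf p.1)) :
    evPt p ⟨(secF f U).hom s, h⟩ = (A.presheaf.germ U _ hx ≫ evHom p.1).hom s :=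
  congrArg (evHom p.1).hom (germAt_eq f (toF_germ f U _ hx s))

variable (f)

/-- A finite set of generators of the sections over an affine open. -/
def IsGensOf (U : A.Opens) [Nonempty U] (S : Finset (FFun f)) : Prop :=
  ((Algebra.adjoin K (S : Set (FFun f))) : Set (FFun f)) = Set.range (secF f U).hom

variable {f} {U : A.Opens} [Nonempty U] {S : Finset (FFun f)}

theorem IsGensOf.secF_mem (hS : IsGensOf f U S) (s : Γ(A, U)) :
    (secF f U).hom s ∈ Algebra.adjoin K (S : Set (FFun f)) := by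
  rw [← SetLike.mem_coe, hS]
  exact ⟨s, rfl⟩

theorem IsGensOf.exists_eq (hS : IsGensOf f U S) {z : FFun f}
    (hz : z ∈ Algebra.adjoin K (S : Set (FFun f))) : ∃ s, (secF f U).hom s = z := by
  rw [← SetLike.mem_coe, hS] at hz
  exact hz

theorem IsGensOf.mem_open (hS : IsGensOf f U S) (hU : IsAffineOpen U) {x : A}
    (h : ∀ z ∈ S, z ∈ locSub f x) : x ∈ U :=
  mem_of_forall_mem_locSub f hU fun s =>
    Algebra.adjoin_le (fun z hz => h z hz) (hS.secF_mem s)

theorem IsGensOf.mem_locSub (hS : IsGensOf f U S) {x : A} (hx : x ∈ U) {z : FFun f}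
    (hz : z ∈ S) : z ∈ locSub f x := by
  obtain ⟨s, rfl⟩ := hS.exists_eq (Algebra.subset_adjoin (Finset.mem_coe.mpr hz))
  exact secF_mem_locSub f U x hx s

/-- Regular functions at a point are fractions of sections. -/
theorem IsGensOf.loc_eq_frac (hS : IsGensOf f U S) (hU : IsAffineOpen U)
    (p : SchemeHomOver (tOf (K := K) E) f) (h : ∀ z ∈ S, z ∈ locSub f (ptOf p.1)) (z : FFun f)
    (hz : z ∈ locSub f (ptOf p.1)) :
    ∃ a ∈ Algebra.adjoin K (S : Set (FFun f)), ∃ s ∈ Algebra.adjoin K (S : Set (FFun f)),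
      ∃ hs : s ∈ locSub f (ptOf p.1), evPt p ⟨s, hs⟩ ≠ 0 ∧ z * s = a := by
  have hx : ptOf p.1 ∈ U := hS.mem_open hU h
  letI := TopCat.Presheaf.algebra_section_stalk A.presheaf ⟨ptOf p.1, hx⟩
  haveI := hU.isLocalization_stalk ⟨ptOf p.1, hx⟩
  obtain ⟨⟨a, b⟩, hab⟩ :=
    IsLocalization.surj (hU.primeIdealOf ⟨ptOf p.1, hx⟩).asIdeal.primeCompl (germAt f z hz)
  refine ⟨_, hS.secF_mem a, _, hS.secF_mem b.1, secF_mem_locSub f U _ hx b.1, ?_, ?_⟩
  · rw [evPt_secF p U hx]
    have hb : IsUnit ((A.presheaf.germ U _ hx).hom b.1) :=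
      IsLocalization.map_units (A.presheaf.stalk (ptOf p.1)) b
    exact (hb.map (evHom p.1).hom).ne_zero
  · have h1 := congrArg (toF f (ptOf p.1)).hom hab
    refine Eq.trans ?_ (h1.trans (toF_germ f U _ hx a))
    exact ((map_mul (toF f (ptOf p.1)).hom _ _).trans
      (congrArg₂ (· * ·) (toF_germAt f z hz) (toF_germ f U _ hx b.1))).symm

/-- Homomorphisms out of the coordinate ring are points. -/
theorem IsGensOf.exists_point (hS : IsGensOf f U S) (hU : IsAffineOpen U)
    (φ : Algebra.adjoin K (S : Set (FFun f)) →ₐ[K] E) :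
    ∃ p : SchemeHomOver (tOf (K := K) E) f, ∀ a : Algebra.adjoin K (S : Set (FFun f)),
      ∃ h : (a : FFun f) ∈ locSub f (ptOf p.1), evPt p ⟨a, h⟩ = φ a := by
  let ψ : Γ(A, U) ⟶ CommRingCat.of E :=
    CommRingCat.ofHom (φ.toRingHom.comp ((secF f U).hom.codRestrict _ hS.secF_mem))
  have hψ : secK f hU ≫ ψ = CommRingCat.ofHom (algebraMap K E) :=
    CommRingCat.hom_ext <| RingHom.ext fun a =>
      (congrArg φ (Subtype.ext (congrArg
        (fun k : CommRingCat.of K ⟶ CommRingCat.of (FFun f) => k.hom a) (secK_secF f hU)))).trans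
        (φ.commutes a)
  let p : SchemeHomOver (tOf (K := K) E) f := ⟨Spec.map ψ ≫ hU.fromSpec, by
    rw [Category.assoc, ← Spec.map_preimage (hU.fromSpec ≫ f), ← Spec.map_comp]
    exact congrArg Spec.map hψ⟩
  have hx : ptOf p.1 ∈ U := ptOf_mem_of_factor hU (φ := ψ) rfl
  refine ⟨p, fun a => ?_⟩
  obtain ⟨s, hs⟩ := hS.exists_eq a.2
  have hmem : (secF f U).hom s ∈ locSub f (ptOf p.1) := secF_mem_locSub f U _ hx s
  refine ⟨hs ▸ hmem, ?_⟩
  rw [show (⟨(a : FFun f), hs ▸ hmem⟩ : locSub f (ptOf p.1)) = ⟨(secF f U).hom s, hmem⟩ from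
    Subtype.ext hs.symm, evPt_secF p U hx]
  refine (congrArg (fun k : Γ(A, U) ⟶ CommRingCat.of E => k.hom s)
    (germ_evHom_eq hU (p := p.1) (φ := ψ) rfl)).trans ?_
  exact congrArg φ (Subtype.ext hs)

/-- A chart is regular at the specialisation whenever its values are integral. -/
theorem IsGensOf.mem_locSub_specPt (hS : IsGensOf f U S) (hU : IsAffineOpen U) [IsProper f]
    {k : Type u} [Field k] [Algebra K k] (R : KRes K E k)
    (p : SchemeHomOver (tOf (K := K) E) f)
    (h : ∀ z ∈ S, ∃ hz : z ∈ locSub f (ptOf p.1), evPt p ⟨z, hz⟩ ∈ R.V)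
    {z : FFun f} (hz : z ∈ S) : z ∈ locSub f (ptOf (specPt R p).1) := by
  have hx : ptOf p.1 ∈ U := hS.mem_open hU fun z hz => (h z hz).1
  let T : Subalgebra K (FFun f) :=
    { carrier := {z | ∃ hz : z ∈ locSub f (ptOf p.1), evPt p ⟨z, hz⟩ ∈ R.V}
      mul_mem' := fun {a b} ⟨ha, ha'⟩ ⟨hb, hb'⟩ => ⟨mul_mem ha hb, by
        rw [show (⟨a * b, mul_mem ha hb⟩ : locSub f (ptOf p.1)) = ⟨a, ha⟩ * ⟨b, hb⟩ from rfl,
          map_mul]
        exact mul_mem ha' hb'⟩
      add_mem' := fun {a b} ⟨ha, ha'⟩ ⟨hb, hb'⟩ => ⟨add_mem ha hb, by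
        rw [show (⟨a + b, add_mem ha hb⟩ : locSub f (ptOf p.1)) = ⟨a, ha⟩ + ⟨b, hb⟩ from rfl,
          map_add]
        exact add_mem ha' hb'⟩
      algebraMap_mem' := fun a => ⟨Subalgebra.algebraMap_mem _ a, by
        rw [show (⟨algebraMap K (FFun f) a, Subalgebra.algebraMap_mem _ a⟩ :
            locSub f (ptOf p.1)) = algebraMap K (locSub f (ptOf p.1)) a from rfl, AlgHom.commutes]
        exact R.mem a⟩ }
  have hT : Algebra.adjoin K (S : Set (FFun f)) ≤ T := Algebra.adjoin_le fun z hz => h z hz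
  have hval : ∀ s, (A.presheaf.germ U _ hx ≫ evHom p.1).hom s ∈ R.V.toSubring := fun s => by
    obtain ⟨hs, hs'⟩ := hT (hS.secF_mem s)
    rw [evPt_secF p U hx] at hs'
    exact hs'
  let θ : Γ(A, U) ⟶ CommRingCat.of R.V :=
    CommRingCat.ofHom ((A.presheaf.germ U _ hx ≫ evHom p.1).hom.codRestrict R.V.toSubring hval)
  have hθ : Spec.map (CommRingCat.ofHom R.V.subtype) ≫ (Spec.map θ ≫ hU.fromSpec) = p.1 := by
    rw [← Category.assoc, ← Spec.map_comp]
    exact specMap_germ_evHom hU p.1 hx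
  have hx' : ptOf (specPt R p).1 ∈ U :=
    ptOf_mem_of_factor hU (φ := θ ≫ CommRingCat.ofHom R.π) (by
      rw [specPt_eq R p hθ, Spec.map_comp, Category.assoc])
  exact hS.mem_locSub hx' hz

variable (f)

/-- Around every point there is a standard smooth chart. -/
theorem exists_chart (g : ℕ) [SmoothOfRelativeDimension g f] (x : A) :
    ∃ (U : A.Opens) (_ : IsAffineOpen U) (_ : Nonempty U) (S : Finset (FFun f)),
      x ∈ U ∧ IsGensOf f U S ∧
        Algebra.IsStandardSmoothOfRelativeDimension g K (Algebra.adjoin K (S : Set (FFun f))) := by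
  classical
  obtain ⟨W, hW, V, hV, hx, e, hs⟩ :=
    SmoothOfRelativeDimension.exists_isStandardSmoothOfRelativeDimension (n := g) (f := f) x
  obtain rfl : W = ⊤ := opens_eq_top W (e hx)
  haveI hne : Nonempty V := ⟨⟨x, hx⟩⟩
  letI := ((Scheme.ΓSpecIso (CommRingCat.of K)).inv ≫ f.appLE ⊤ V e).hom.toAlgebra
  haveI : Algebra.IsStandardSmoothOfRelativeDimension g K Γ(A, V) :=
    RingHom.isStandardSmoothOfRelativeDimension_respectsIso.2
      (f.appLE ⊤ V e).hom (Scheme.ΓSpecIso (CommRingCat.of K)).commRingCatIsoToRingEquiv.symm hs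
  haveI : Algebra.IsStandardSmooth K Γ(A, V) :=
    Algebra.IsStandardSmoothOfRelativeDimension.isStandardSmooth g
  let j : Γ(A, V) →ₐ[K] FFun f :=
    { (secF f V).hom with
      commutes' := fun a => by
        have h := secK_secF f hV
        rw [secK_eq f hV e] at h
        exact congrArg (fun k : CommRingCat.of K ⟶ CommRingCat.of (FFun f) => k.hom a) h }
  obtain ⟨S₀, hS₀⟩ := (inferInstance : Algebra.FiniteType K Γ(A, V)).out
  have hadj : Algebra.adjoin K ((S₀.image j : Finset (FFun f)) : Set (FFun f)) = j.range := by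
    rw [Finset.coe_image, ← AlgHom.map_adjoin, hS₀, Algebra.map_top]
  refine ⟨V, hV, hne, S₀.image j, hx, ?_, ?_⟩
  · rw [IsGensOf, hadj]
    rfl
  · exact Algebra.IsStandardSmoothOfRelativeDimension.of_algEquiv g
      ((AlgEquiv.ofInjective j (secF_injective f V)).trans
        (Subalgebra.equivOfEq _ _ hadj.symm))

/-- Finitely many charts cover. -/
theorem exists_charts (g : ℕ) [SmoothOfRelativeDimension g f] [CompactSpace A] :
    ∃ C : Finset (Finset (FFun f)),
      (∀ S ∈ C, ∃ (U : A.Opens) (_ : IsAffineOpen U) (_ : Nonempty U), IsGensOf f U S ∧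
        Algebra.IsStandardSmoothOfRelativeDimension g K (Algebra.adjoin K (S : Set (FFun f)))) ∧
      ∀ x : A, ∃ S ∈ C, ∀ z ∈ S, z ∈ locSub f x := by
  classical
  choose U hU hne S hx hS hsm using exists_chart f g
  obtain ⟨t, ht⟩ := (isCompact_univ (X := A)).elim_finite_subcover (fun x => (U x : Set A))
    (fun x => (U x).isOpen) fun x _ => Set.mem_iUnion.mpr ⟨x, hx x⟩
  refine ⟨t.image S, fun T hT => ?_, fun y => ?_⟩
  · obtain ⟨x, -, rfl⟩ := Finset.mem_image.mp hT
    exact ⟨U x, hU x, hne x, hS x, hsm x⟩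
  · obtain ⟨x, hxt, hyx⟩ : ∃ x ∈ t, y ∈ U x := by
      simpa only [Set.mem_iUnion, SetLike.mem_coe, exists_prop] using ht (Set.mem_univ y)
    exact ⟨S x, Finset.mem_image_of_mem S hxt, fun z hz =>
      haveI := hne x
      (hS x).mem_locSub hyx hz⟩

/-- The function field is that of any chart. -/
theorem fg_and_trdeg_of_gens {g : ℕ} (hU : IsAffineOpen U) (hS : IsGensOf f U S)
    [Algebra.IsStandardSmoothOfRelativeDimension g K (Algebra.adjoin K (S : Set (FFun f)))] :
    (⊤ : IntermediateField K (FFun f)).FG ∧ Algebra.trdeg K (FFun f) = g := by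
  letI : Algebra Γ(A, U) (FFun f) := (secF f U).hom.toAlgebra
  haveI : IsFractionRing Γ(A, U) (FFun f) :=
    functionField_isFractionRing_of_isAffineOpen A U hU
  have hdiv : ∀ z : FFun f, ∃ a ∈ Algebra.adjoin K (S : Set (FFun f)),
      ∃ b ∈ Algebra.adjoin K (S : Set (FFun f)), a / b = z := fun z => by
    obtain ⟨a, b, -, hab⟩ := IsFractionRing.div_surjective (A := Γ(A, U)) z
    exact ⟨_, hS.secF_mem a, _, hS.secF_mem b, hab⟩
  haveI : IsFractionRing (Algebra.adjoin K (S : Set (FFun f))) (FFun f) :=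
    IsFractionRing.of_field _ _ fun z => by
      obtain ⟨a, ha, b, hb, hab⟩ := hdiv z
      exact ⟨⟨a, ha⟩, ⟨b, hb⟩, hab.symm⟩
  refine ⟨⟨S, eq_top_iff.mpr fun z _ => ?_⟩,
    trdeg_of_standardSmooth (S := Algebra.adjoin K (S : Set (FFun f))) g (FFun f)⟩
  obtain ⟨a, ha, b, hb, rfl⟩ := hdiv z
  exact div_mem (IntermediateField.algebra_adjoin_le_adjoin K _ ha)
    (IntermediateField.algebra_adjoin_le_adjoin K _ hb)

end FLTAgent.AbVarTors.Bir
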