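import Fermat.Agent.AbVarTors.Birational.Smooth
import Fermat.Agent.AbVarTors.Points

/-!
# Abelian schemes over an algebraically closed field are integral

Some closed point lies on only one irreducible component and translations by rational points move
it to any other closed point, so the components are disjoint and connectedness makes the scheme
irreducible (`irreducibleSpace_of_groupLaw`). It is reduced as it is smooth (`isReduced_of_smooth`),
hence integral (`isIntegral_of_groupLaw`).
-/

set_option autoImplicit false
set_option linter.style.haveILetI false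
set_option linter.unusedSectionVars false

noncomputable section

open CategoryTheory CategoryTheory.Limits AlgebraicGeometry NeronModelInfra GoodReductionJacobian

universe u

namespace FLTAgent.AbVarTors

variable {K : Type u} [Field K] {A : Scheme.{u}} {f : A ⟶ Spec (CommRingCat.of K)}
  (L : RelativeGroupLaw K f)

/-- The constant point. -/
def constPoint (c : SchemeHomOver (𝟙 (Spec (CommRingCat.of K))) f) {T : Scheme.{u}}
    (t : T ⟶ Spec (CommRingCat.of K)) : SchemeHomOver t f :=
  schemeHomOverComp t (Category.comp_id t) c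

/-- Translation by a point. -/
def translate (c : SchemeHomOver (𝟙 (Spec (CommRingCat.of K))) f) : A ⟶ A :=
  (L.mul f RelativeGroupLaw.idPoint (constPoint c f)).1

theorem translate_over (c : SchemeHomOver (𝟙 (Spec (CommRingCat.of K))) f) :
    translate L c ≫ f = f :=
  (L.mul f RelativeGroupLaw.idPoint (constPoint c f)).2

theorem comp_translate {T : Scheme.{u}} {t : T ⟶ Spec (CommRingCat.of K)}
    (x : SchemeHomOver t f) (c : SchemeHomOver (𝟙 (Spec (CommRingCat.of K))) f) :
    x.1 ≫ translate L c = (L.mul t x (constPoint c t)).1 := by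
  rw [translate, comp_mul L x.2]
  refine congrArg Subtype.val (congrArg₂ (L.mul t) (Subtype.ext (Category.comp_id x.1))
    (Subtype.ext ?_))
  show x.1 ≫ f ≫ c.1 = t ≫ c.1
  rw [← Category.assoc, x.2]

theorem translate_translate (c d : SchemeHomOver (𝟙 (Spec (CommRingCat.of K))) f) :
    translate L c ≫ translate L d = translate L (L.mul _ c d) := by
  rw [show translate L c = (L.mul f RelativeGroupLaw.idPoint (constPoint c f)).1 from rfl,
    comp_translate L (L.mul f RelativeGroupLaw.idPoint (constPoint c f)) d, L.mul_assoc, translate]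
  congr 2
  exact (L.mul_natural (𝟙 _) f f (Category.comp_id f) c d).symm

theorem translate_one : translate L (L.one (𝟙 (Spec (CommRingCat.of K)))) = 𝟙 A := by
  rw [translate, show constPoint (L.one (𝟙 (Spec (CommRingCat.of K)))) f = L.one f from
    L.one_natural (𝟙 _) f f (Category.comp_id f), L.mul_one]

theorem isIso_translate (c : SchemeHomOver (𝟙 (Spec (CommRingCat.of K))) f) :
    IsIso (translate L c) :=
  ⟨translate L (L.inv _ c),
    by rw [translate_translate, L.mul_inv_cancel, translate_one],
    by rw [translate_translate, L.inv_mul_cancel, translate_one]⟩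

variable [IsAlgClosed K] (hA : AbelianSchemePropertyBundle K f)

include L hA

theorem irreducibleSpace_of_groupLaw : IrreducibleSpace A := by
  classical
  haveI := hA.proper
  haveI : IsLocallyNoetherian A := LocallyOfFiniteType.isLocallyNoetherian f
  haveI : CompactSpace A := QuasiCompact.compactSpace_of_compactSpace f
  haveI : IsNoetherian A := {}
  haveI : JacobsonSpace A := LocallyOfFiniteType.jacobsonSpace f
  haveI : Nonempty A := ⟨(L.one (𝟙 _)).1.base (IsLocalRing.closedPoint K)⟩
  have hfin : (irreducibleComponents A).Finite :=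
    TopologicalSpace.NoetherianSpace.finite_irreducibleComponents
  obtain ⟨Z, hZ⟩ : (irreducibleComponents A).Nonempty :=
    ⟨_, irreducibleComponent_mem_irreducibleComponents (Classical.arbitrary A)⟩
  -- a closed point on one component only
  have hopen : IsOpen (⋃₀ (irreducibleComponents A \ {Z}))ᶜ := by
    rw [isOpen_compl_iff, Set.sUnion_eq_biUnion]
    exact hfin.sdiff.isClosed_biUnion fun W hW => isClosed_of_mem_irreducibleComponents W hW.1
  have hne : ((⋃₀ (irreducibleComponents A \ {Z}))ᶜ : Set A).Nonempty := by
    by_contra h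
    rw [Set.not_nonempty_iff_eq_empty] at h
    have h' := closure_sUnion_irreducibleComponents_sdiff_singleton hfin Z hZ
    rw [h, closure_empty] at h'
    exact hZ.1.nonempty.ne_empty h'.symm
  obtain ⟨x₀, hx₀, hx₀c⟩ := nonempty_inter_closedPoints hne hopen.isLocallyClosed
  have huniq : ∀ W ∈ irreducibleComponents A, x₀ ∈ W → W = Z := fun W hW hx => by
    by_contra hWZ
    exact hx₀ ⟨W, ⟨hW, hWZ⟩, hx⟩
  -- the components are disjoint
  have hdis : ∀ W₁ ∈ irreducibleComponents A, ∀ W₂ ∈ irreducibleComponents A,
      (W₁ ∩ W₂).Nonempty → W₁ = W₂ := by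
    intro W₁ h₁ W₂ h₂ hne'
    obtain ⟨y, ⟨hy₁, hy₂⟩, hyc⟩ := nonempty_inter_closedPoints hne'
      ((isClosed_of_mem_irreducibleComponents W₁ h₁).inter
        (isClosed_of_mem_irreducibleComponents W₂ h₂)).isLocallyClosed
    let P₀ : SchemeHomOver (𝟙 (Spec (CommRingCat.of K))) f :=
      ⟨pointOfClosedPoint f x₀ hx₀c, pointOfClosedPoint_comp f x₀ hx₀c⟩
    let P : SchemeHomOver (𝟙 (Spec (CommRingCat.of K))) f :=
      ⟨pointOfClosedPoint f y hyc, pointOfClosedPoint_comp f y hyc⟩
    let τ := translate L (L.mul _ (L.inv _ P₀) P)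
    haveI : IsIso τ := isIso_translate L _
    have hτ : τ.base x₀ = y := by
      have h := comp_translate L P₀ (L.mul _ (L.inv _ P₀) P)
      rw [show constPoint (L.mul _ (L.inv _ P₀) P) (𝟙 (Spec (CommRingCat.of K))) =
        L.mul _ (L.inv _ P₀) P from Subtype.ext (Category.id_comp _), ← L.mul_assoc,
        L.mul_inv_cancel, L.one_mul] at h
      have h' := congrArg (fun z : Spec (CommRingCat.of K) ⟶ A =>
        z.base (IsLocalRing.closedPoint K)) h
      calc τ.base x₀ = τ.base ((pointOfClosedPoint f x₀ hx₀c).base (IsLocalRing.closedPoint K)) :=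
            (congrArg τ.base (pointOfClosedPoint_apply f x₀ hx₀c _)).symm
        _ = (pointOfClosedPoint f y hyc).base (IsLocalRing.closedPoint K) := h'
        _ = y := pointOfClosedPoint_apply f y hyc _
    have key : ∀ W ∈ irreducibleComponents A, y ∈ W → τ.base ⁻¹' W = Z := fun W hW hyW =>
      huniq _ (preimage_mem_irreducibleComponents hW τ.isOpenEmbedding
        ⟨y, hyW, x₀, hτ⟩) (show τ.base x₀ ∈ W from hτ.symm ▸ hyW)
    have hsur : Function.Surjective τ.base := τ.surjective
    exact hsur.preimage_injective ((key W₁ h₁ hy₁).trans (key W₂ h₂ hy₂).symm)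
  -- hence the only component is everything
  have hZopen : IsOpen Z := by
    have h : Z = (⋃₀ (irreducibleComponents A \ {Z}))ᶜ := by
      refine Set.Subset.antisymm (fun z hz => ?_) fun z hz => ?_
      · rintro ⟨W, ⟨hW, hWZ⟩, hzW⟩
        exact hWZ (hdis W hW Z hZ ⟨z, hzW, hz⟩)
      · obtain ⟨W, hW, hzW⟩ :=
          (sUnion_irreducibleComponents (X := A)).symm ▸ Set.mem_univ z
        by_cases hWZ : W = Z
        · exact hWZ ▸ hzW
        · exact absurd ⟨W, ⟨hW, hWZ⟩, hzW⟩ hz
    exact h ▸ hopen
  have hconn : _root_.IsConnected (Set.univ : Set A) := by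
    convert hA.connectedFibres (IsLocalRing.closedPoint K) using 1
    exact (Set.eq_univ_of_forall fun x => Subsingleton.elim (α := PrimeSpectrum K) _ _).symm
  haveI : ConnectedSpace A := connectedSpace_iff_univ.mpr hconn
  have huniv : Z = Set.univ :=
    IsClopen.eq_univ ⟨isClosed_of_mem_irreducibleComponents Z hZ, hZopen⟩ hZ.1.nonempty
  exact (irreducibleSpace_def A).mpr (by rw [Set.top_eq_univ, ← huniv]; exact hZ.1)

omit [IsAlgClosed K] in
/-- A scheme smooth over a field is reduced. -/
theorem isReduced_of_smooth (g : ℕ) [SmoothOfRelativeDimension g f] : IsReduced A := by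
  have : ∀ x : A, _root_.IsReduced (A.presheaf.stalk x) := by
    intro x
    obtain ⟨U, hU, V, hV, hx, e, hs⟩ :=
      SmoothOfRelativeDimension.exists_isStandardSmoothOfRelativeDimension (n := g) (f := f) x
    obtain rfl : U = ⊤ := opens_eq_top U (e hx)
    letI := ((Scheme.ΓSpecIso (CommRingCat.of K)).inv ≫ f.appLE ⊤ V e).hom.toAlgebra
    haveI : Algebra.IsStandardSmoothOfRelativeDimension g K Γ(A, V) := by
      have h := RingHom.isStandardSmoothOfRelativeDimension_respectsIso.2
        (f.appLE ⊤ V e).hom (Scheme.ΓSpecIso (CommRingCat.of K)).commRingCatIsoToRingEquiv.symm hs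
      exact h
    haveI := isReduced_of_standardSmooth (K := K) (S := Γ(A, V)) g
    letI := TopCat.Presheaf.algebra_section_stalk A.presheaf ⟨x, hx⟩
    haveI := hV.isLocalization_stalk ⟨x, hx⟩
    exact isReduced_localizationPreserves (hV.primeIdealOf ⟨x, hx⟩).asIdeal.primeCompl
      (A.presheaf.stalk x) inferInstance
  exact isReduced_of_isReduced_stalk A

/-- An abelian scheme over an algebraically closed field is integral. -/
theorem isIntegral_of_groupLaw (g : ℕ) [SmoothOfRelativeDimension g f] : IsIntegral A :=
  haveI := irreducibleSpace_of_groupLaw L hA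
  haveI := isReduced_of_smooth L hA g
  isIntegral_of_irreducibleSpace_of_isReduced A

end FLTAgent.AbVarTors
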