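import Fermat.Agent.AbVarTors.Birational.Integral
import Fermat.Agent.AbVarTors.Data

/-!
# Local rings and specialisation inside the function field

For an integral scheme over a field: the function field `FFun` as an algebra, the local ring
`locSub` of a point inside it, evaluation `evPt` at a point with values in a field, and
specialisation `specPt` along a residue map, defined by the valuative criterion of properness and
compatible with the group law (`specPt_mul`).
-/

set_option autoImplicit false
set_option linter.style.haveILetI false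
set_option linter.unusedSectionVars false
set_option linter.overlappingInstances false

noncomputable section

open CategoryTheory CategoryTheory.Limits AlgebraicGeometry NeronModelInfra GoodReductionJacobian

universe u

namespace FLTAgent.AbVarTors.Bir

variable {K : Type u} [Field K] {A : Scheme.{u}}

/-- The function field, as a `K`-algebra through the structure map. -/
@[nolint unusedArguments]
def FFun (_f : A ⟶ Spec (CommRingCat.of K)) [IsIntegral A] : Type u := A.functionField

variable (f : A ⟶ Spec (CommRingCat.of K)) [IsIntegral A]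

instance ffunField : Field (FFun f) := inferInstanceAs (Field A.functionField)

/-- Germs in the function field. -/
def toF (x : A) : A.presheaf.stalk x ⟶ CommRingCat.of (FFun f) :=
  A.presheaf.stalkSpecializes ((genericPoint_spec A).specializes trivial)

theorem toF_injective (x : A) : Function.Injective (toF f x).hom :=
  IsFractionRing.injective (A.presheaf.stalk x) A.functionField

/-- The generic point. -/
def genPt : Spec (CommRingCat.of (FFun f)) ⟶ A := A.fromSpecStalk (genericPoint A)

theorem specMap_toF (x : A) : Spec.map (toF f x) ≫ A.fromSpecStalk x = genPt f :=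
  A.SpecMap_stalkSpecializes_fromSpecStalk ((genericPoint_spec A).specializes trivial)

instance ffunAlgebra : Algebra K (FFun f) := (Spec.preimage (genPt f ≫ f)).hom.toAlgebra

/-- The structure map of a stalk. -/
def stalkK (x : A) : CommRingCat.of K ⟶ A.presheaf.stalk x :=
  Spec.preimage (A.fromSpecStalk x ≫ f)

theorem stalkK_toF (x : A) :
    stalkK f x ≫ toF f x = CommRingCat.ofHom (algebraMap K (FFun f)) := by
  apply Spec.map_injective
  rw [Spec.map_comp, stalkK, Spec.map_preimage, ← Category.assoc, specMap_toF,
    RingHom.algebraMap_toAlgebra, CommRingCat.ofHom_hom, Spec.map_preimage]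

variable [IsSeparated f]

include f in
/-- Morphisms from the spectrum of a domain agreeing generically are equal. -/
theorem eq_of_generic {R : CommRingCat.{u}} [IsDomain R] {E : CommRingCat.{u}} (ι : R ⟶ E)
    (hι : Function.Injective ι.hom) {u v : Spec R ⟶ A}
    (h : Spec.map ι ≫ u = Spec.map ι ≫ v) : u = v := by
  haveI : IsDominant (Spec.map ι) := by
    refine ⟨(PrimeSpectrum.denseRange_comap_iff_ker_le_nilRadical ι.hom).mpr ?_⟩
    rw [(RingHom.injective_iff_ker_eq_bot ι.hom).mp hι]
    exact bot_le
  haveI : _root_.IsReduced R := inferInstance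
  haveI : IsReduced (Spec R) := inferInstance
  have h' : Spec.preimage (u ≫ f) ≫ ι = Spec.preimage (v ≫ f) ≫ ι := by
    apply Spec.map_injective
    simp only [Spec.map_comp, Spec.map_preimage, ← Category.assoc, h]
  have h'' : Spec.preimage (u ≫ f) = Spec.preimage (v ≫ f) :=
    CommRingCat.hom_ext <| RingHom.ext fun a =>
      hι (congrArg (fun k : CommRingCat.of K ⟶ E => k.hom a) h')
  have hf : u ≫ f = v ≫ f := by
    rw [← Spec.map_preimage (u ≫ f), h'', Spec.map_preimage]
  exact ext_of_isDominant_of_isSeparated f hf (Spec.map ι) h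

/-- The local ring at `x` inside the function field. -/
def locSub (x : A) : Subalgebra K (FFun f) :=
  { (toF f x).hom.range with
    algebraMap_mem' := fun a => ⟨(stalkK f x).hom a,
      congrArg (fun k : CommRingCat.of K ⟶ CommRingCat.of (FFun f) => k.hom a) (stalkK_toF f x)⟩ }

theorem mem_locSub {x : A} {z : FFun f} : z ∈ locSub f x ↔ ∃ s, (toF f x).hom s = z := Iff.rfl

/-- The germ of an element of the local ring. -/
def germAt {x : A} (z : FFun f) (h : z ∈ locSub f x) : A.presheaf.stalk x :=
  ((mem_locSub f).mp h).choose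

theorem toF_germAt {x : A} (z : FFun f) (h : z ∈ locSub f x) :
    (toF f x).hom (germAt f z h) = z := ((mem_locSub f).mp h).choose_spec

theorem germAt_eq {x : A} {z : FFun f} {h : z ∈ locSub f x} {s : A.presheaf.stalk x}
    (hs : (toF f x).hom s = z) : germAt f z h = s :=
  toF_injective f x ((toF_germAt f z h).trans hs.symm)

/-- The inclusion of local rings. -/
def stalkInc {x y : A} (h : locSub f y ≤ locSub f x) : A.presheaf.stalk y ⟶ A.presheaf.stalk x :=
  CommRingCat.ofHom
    { toFun := fun s => germAt f ((toF f y).hom s) (h ⟨s, rfl⟩)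
      map_one' := germAt_eq f ((map_one (toF f x).hom).trans (map_one (toF f y).hom).symm)
      map_mul' := fun a b => germAt_eq f (((map_mul (toF f x).hom _ _).trans
        (congrArg₂ (· * ·) (toF_germAt f _ _) (toF_germAt f _ _))).trans
        (map_mul (toF f y).hom a b).symm)
      map_zero' := germAt_eq f ((map_zero (toF f x).hom).trans (map_zero (toF f y).hom).symm)
      map_add' := fun a b => germAt_eq f (((map_add (toF f x).hom _ _).trans
        (congrArg₂ (· + ·) (toF_germAt f _ _) (toF_germAt f _ _))).trans
        (map_add (toF f y).hom a b).symm) }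

theorem stalkInc_toF {x y : A} (h : locSub f y ≤ locSub f x) :
    stalkInc f h ≫ toF f x = toF f y :=
  CommRingCat.hom_ext <| RingHom.ext fun s => toF_germAt f _ (h ⟨s, rfl⟩)

theorem specMap_stalkInc {x y : A} (h : locSub f y ≤ locSub f x) :
    Spec.map (stalkInc f h) ≫ A.fromSpecStalk y = A.fromSpecStalk x :=
  eq_of_generic f (toF f x) (toF_injective f x) (by
    rw [← Category.assoc, ← Spec.map_comp, stalkInc_toF, specMap_toF, specMap_toF])

theorem locSub_le_of_specializes {x y : A} (h : x ⤳ y) : locSub f y ≤ locSub f x := by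
  rintro _ ⟨s, rfl⟩
  exact ⟨(A.presheaf.stalkSpecializes h).hom s,
    congrArg (fun k : A.presheaf.stalk y ⟶ CommRingCat.of (FFun f) => k.hom s)
      (A.presheaf.stalkSpecializes_comp _ _)⟩

theorem specializes_of_locSub_le {x y : A} (h : locSub f y ≤ locSub f x) : x ⤳ y := by
  have h1 : (A.fromSpecStalk x) (IsLocalRing.closedPoint _) ∈ Set.range (A.fromSpecStalk y) :=
    ⟨(Spec.map (stalkInc f h)) (IsLocalRing.closedPoint _),
      (Scheme.Hom.comp_apply _ _ _).symm.trans
        (congrArg (fun q : Spec (A.presheaf.stalk x) ⟶ A => q (IsLocalRing.closedPoint _))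
          (specMap_stalkInc f h))⟩
  rw [Scheme.range_fromSpecStalk, Scheme.fromSpecStalk_closedPoint] at h1
  exact h1

theorem eq_of_locSub_eq {x y : A} (h : locSub f x = locSub f y) : x = y :=
  ((specializes_of_locSub_le f h.ge).antisymm (specializes_of_locSub_le f h.le)).eq

variable {E : Type u} [Field E]

/-- The image point. -/
def ptOf (p : Spec (CommRingCat.of E) ⟶ A) : A := p (IsLocalRing.closedPoint E)

/-- Evaluation of germs. -/
def evHom (p : Spec (CommRingCat.of E) ⟶ A) : A.presheaf.stalk (ptOf p) ⟶ CommRingCat.of E :=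
  Scheme.stalkClosedPointTo p

theorem specMap_evHom (p : Spec (CommRingCat.of E) ⟶ A) :
    Spec.map (evHom p) ≫ A.fromSpecStalk (ptOf p) = p :=
  Scheme.Spec_stalkClosedPointTo_fromSpecStalk p

theorem isLocalHom_evHom (p : Spec (CommRingCat.of E) ⟶ A) : IsLocalHom (evHom p).hom :=
  Scheme.isLocalHom_stalkClosedPointTo p

theorem locSub_le_of_factor {p : Spec (CommRingCat.of E) ⟶ A} {y : A}
    {φ : A.presheaf.stalk y ⟶ CommRingCat.of E}
    (hφ : p = Spec.map φ ≫ A.fromSpecStalk y) : locSub f y ≤ locSub f (ptOf p) := by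
  refine locSub_le_of_specializes f ?_
  have h1 : ptOf p ∈ Set.range (A.fromSpecStalk y) := by
    refine ⟨(Spec.map φ) (IsLocalRing.closedPoint E), ?_⟩
    subst hφ
    exact (Scheme.Hom.comp_apply _ _ _).symm
  rw [Scheme.range_fromSpecStalk] at h1
  exact h1

/-- The value at a point of a factorisation. -/
theorem evHom_factor {p : Spec (CommRingCat.of E) ⟶ A} {y : A}
    {φ : A.presheaf.stalk y ⟶ CommRingCat.of E} (hφ : p = Spec.map φ ≫ A.fromSpecStalk y)
    (h : locSub f y ≤ locSub f (ptOf p)) : stalkInc f h ≫ evHom p = φ := by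
  refine Spec.map_injective ((cancel_mono (A.fromSpecStalk y)).mp ?_)
  rw [Spec.map_comp, Category.assoc, specMap_stalkInc, specMap_evHom, hφ]

theorem eq_specMap_inc (p : Spec (CommRingCat.of E) ⟶ A) {y : A}
    (h : locSub f y ≤ locSub f (ptOf p)) :
    p = Spec.map (stalkInc f h ≫ evHom p) ≫ A.fromSpecStalk y := by
  rw [Spec.map_comp, Category.assoc, specMap_stalkInc, specMap_evHom]

variable [Algebra K E]

/-- The structure map of a field. -/
abbrev tOf (E : Type u) [Field E] [Algebra K E] :
    Spec (CommRingCat.of E) ⟶ Spec (CommRingCat.of K) :=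
  Spec.map (CommRingCat.ofHom (algebraMap K E))

variable {f}

theorem stalkK_evHom (p : SchemeHomOver (tOf (K := K) E) f) :
    stalkK f (ptOf p.1) ≫ evHom p.1 = CommRingCat.ofHom (algebraMap K E) := by
  apply Spec.map_injective
  rw [Spec.map_comp, stalkK, Spec.map_preimage, ← Category.assoc, specMap_evHom, p.2]

/-- Evaluation at a point. -/
def evPt (p : SchemeHomOver (tOf (K := K) E) f) : locSub f (ptOf p.1) →ₐ[K] E where
  toFun z := (evHom p.1).hom (germAt f z.1 z.2)
  map_one' := (congrArg (evHom p.1).hom (germAt_eq f (map_one (toF f _).hom))).trans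
    (map_one (evHom p.1).hom)
  map_mul' a b := (congrArg (evHom p.1).hom (germAt_eq f ((map_mul (toF f _).hom _ _).trans
    (congrArg₂ (· * ·) (toF_germAt f a.1 a.2) (toF_germAt f b.1 b.2))))).trans
    (map_mul (evHom p.1).hom _ _)
  map_zero' := (congrArg (evHom p.1).hom (germAt_eq f (map_zero (toF f _).hom))).trans
    (map_zero (evHom p.1).hom)
  map_add' a b := (congrArg (evHom p.1).hom (germAt_eq f ((map_add (toF f _).hom _ _).trans
    (congrArg₂ (· + ·) (toF_germAt f a.1 a.2) (toF_germAt f b.1 b.2))))).trans
    (map_add (evHom p.1).hom _ _)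
  commutes' a := (congrArg (evHom p.1).hom (germAt_eq f (s := (stalkK f (ptOf p.1)).hom a)
      (congrArg (fun k : CommRingCat.of K ⟶ CommRingCat.of (FFun f) => k.hom a)
        (stalkK_toF f _)))).trans
    (congrArg (fun k : CommRingCat.of K ⟶ CommRingCat.of E => k.hom a) (stalkK_evHom p))

theorem evPt_apply (p : SchemeHomOver (tOf (K := K) E) f) (z : locSub f (ptOf p.1)) :
    evPt p z = (evHom p.1).hom (germAt f z.1 z.2) := rfl

/-- Values through a factorisation. -/
theorem evPt_factor (p : SchemeHomOver (tOf (K := K) E) f) {y : A}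
    {φ : A.presheaf.stalk y ⟶ CommRingCat.of E} (hφ : p.1 = Spec.map φ ≫ A.fromSpecStalk y)
    (s : A.presheaf.stalk y) (h : (toF f y).hom s ∈ locSub f (ptOf p.1)) :
    evPt p ⟨(toF f y).hom s, h⟩ = φ.hom s := by
  have e := evHom_factor f hφ (locSub_le_of_factor f hφ)
  conv_rhs => rw [← e]
  rfl

/-- Points agree when their local rings and values do. -/
theorem schemeHomOver_ext {p q : SchemeHomOver (tOf (K := K) E) f}
    (h : locSub f (ptOf p.1) = locSub f (ptOf q.1))
    (hev : ∀ z hp hq, evPt p ⟨z, hp⟩ = evPt q ⟨z, hq⟩) : p = q := by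
  refine Subtype.ext ?_
  rw [eq_specMap_inc f p.1 h.ge]
  conv_rhs => rw [← specMap_evHom q.1]
  congr 2
  refine CommRingCat.hom_ext (RingHom.ext fun s => ?_)
  have h1 := hev ((toF f _).hom s) (h.ge ⟨s, rfl⟩) ⟨s, rfl⟩
  rw [evPt_apply, evPt_apply] at h1
  exact h1.trans (congrArg (evHom q.1).hom (germAt_eq f rfl))

/-! ### Valuation rings -/

variable {k : Type u} [Field k] [Algebra K k]

/-- The structure map of the valuation ring. -/
def algV (R : KRes K E k) : K →+* R.V := (algebraMap K E).codRestrict R.V.toSubring R.mem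

/-- The structure morphism of the valuation ring. -/
abbrev tV (R : KRes K E k) : Spec (CommRingCat.of R.V) ⟶ Spec (CommRingCat.of K) :=
  Spec.map (CommRingCat.ofHom (algV R))

theorem specMap_subtype_tV (R : KRes K E k) :
    Spec.map (CommRingCat.ofHom R.V.subtype) ≫ tV R = tOf (K := K) E := by
  rw [← Spec.map_comp]
  rfl

theorem specMap_π_tV (R : KRes K E k) :
    Spec.map (CommRingCat.ofHom R.π) ≫ tV R = tOf (K := K) k := by
  rw [← Spec.map_comp]
  congr 1
  exact CommRingCat.hom_ext (RingHom.ext fun a => R.map_algebraMap a)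

theorem isLocalHom_π (R : KRes K E k) : IsLocalHom R.π :=
  ⟨fun x hx => R.isUnit_of_ne x hx.ne_zero⟩

/-- Restriction from the valuation ring. -/
def restrictV (R : KRes K E k) (w : SchemeHomOver (tV R) f) : SchemeHomOver (tOf (K := K) E) f :=
  schemeHomOverComp (Spec.map (CommRingCat.ofHom R.V.subtype)) (specMap_subtype_tV R) w

theorem restrictV_injective (R : KRes K E k) :
    Function.Injective (restrictV (f := f) R) := fun _ _ h =>
  Subtype.ext (eq_of_generic f (CommRingCat.ofHom R.V.subtype) Subtype.val_injective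
    (congrArg Subtype.val h))

/-- Extension to the valuation ring. -/
theorem exists_restrictV [IsProper f] (R : KRes K E k) (p : SchemeHomOver (tOf (K := K) E) f) :
    ∃ w, restrictV R w = p := by
  have hu : UniversallyClosed f := inferInstance
  rw [UniversallyClosed.eq_valuativeCriterion] at hu
  have hex : ValuativeCriterion.Existence f := hu.1
  obtain ⟨l, hl₁, hl₂⟩ := (hex
    { R := R.V, K := E, i₁ := p.1, i₂ := tV R,
      commSq := ⟨p.2.trans (specMap_subtype_tV R).symm⟩ }).exists_lift
  exact ⟨⟨l, hl₂⟩, Subtype.ext hl₁⟩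

/-- The centre. -/
def liftV [IsProper f] (R : KRes K E k) (p : SchemeHomOver (tOf (K := K) E) f) :
    SchemeHomOver (tV R) f := (exists_restrictV R p).choose

theorem restrictV_liftV [IsProper f] (R : KRes K E k) (p : SchemeHomOver (tOf (K := K) E) f) :
    restrictV R (liftV R p) = p := (exists_restrictV R p).choose_spec

/-- Specialisation. -/
def specPt [IsProper f] (R : KRes K E k) (p : SchemeHomOver (tOf (K := K) E) f) :
    SchemeHomOver (tOf (K := K) k) f :=
  schemeHomOverComp (Spec.map (CommRingCat.ofHom R.π)) (specMap_π_tV R) (liftV R p)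

theorem ptOf_specPt [IsProper f] (R : KRes K E k) (p : SchemeHomOver (tOf (K := K) E) f) :
    ptOf (specPt R p).1 = (liftV R p).1 (IsLocalRing.closedPoint R.V) := by
  haveI := isLocalHom_π R
  exact (Scheme.Hom.comp_apply (Spec.map (CommRingCat.ofHom R.π)) (liftV R p).1 _).trans
    (congrArg (fun z : Spec (CommRingCat.of R.V) => (liftV R p).1 z)
      (IsLocalRing.comap_closedPoint R.π))

/-- Both points factor through the local ring of the specialisation. -/
theorem exists_specPt_factor [IsProper f] (R : KRes K E k)
    (p : SchemeHomOver (tOf (K := K) E) f) :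
    ∃ ψ : A.presheaf.stalk (ptOf (specPt R p).1) ⟶ CommRingCat.of R.V,
      p.1 = Spec.map (ψ ≫ CommRingCat.ofHom R.V.subtype) ≫ A.fromSpecStalk _ ∧
      (specPt R p).1 = Spec.map (ψ ≫ CommRingCat.ofHom R.π) ≫ A.fromSpecStalk _ := by
  rw [ptOf_specPt]
  refine ⟨Scheme.stalkClosedPointTo (liftV R p).1, ?_, ?_⟩
  · rw [Spec.map_comp, Category.assoc, Scheme.Spec_stalkClosedPointTo_fromSpecStalk]
    exact (congrArg Subtype.val (restrictV_liftV R p)).symm
  · rw [Spec.map_comp, Category.assoc, Scheme.Spec_stalkClosedPointTo_fromSpecStalk]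
    rfl

theorem liftV_eq [IsProper f] (R : KRes K E k) (p : SchemeHomOver (tOf (K := K) E) f)
    {u : Spec (CommRingCat.of R.V) ⟶ A}
    (h : Spec.map (CommRingCat.ofHom R.V.subtype) ≫ u = p.1) : (liftV R p).1 = u :=
  eq_of_generic f (CommRingCat.ofHom R.V.subtype) Subtype.val_injective
    ((congrArg Subtype.val (restrictV_liftV R p)).trans h.symm)

theorem specPt_eq [IsProper f] (R : KRes K E k) (p : SchemeHomOver (tOf (K := K) E) f)
    {u : Spec (CommRingCat.of R.V) ⟶ A}
    (h : Spec.map (CommRingCat.ofHom R.V.subtype) ≫ u = p.1) :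
    (specPt R p).1 = Spec.map (CommRingCat.ofHom R.π) ≫ u := by
  rw [← liftV_eq R p h]
  rfl

variable (L : RelativeGroupLaw K f)

/-- Specialisation respects the group law. -/
theorem specPt_mul [IsProper f] (R : KRes K E k) (p q : SchemeHomOver (tOf (K := K) E) f) :
    specPt R (L.mul _ p q) = L.mul _ (specPt R p) (specPt R q) := by
  have h : liftV R (L.mul _ p q) = L.mul _ (liftV R p) (liftV R q) := by
    apply restrictV_injective R
    rw [restrictV_liftV]
    show _ = schemeHomOverComp _ _ _
    rw [L.mul_natural, ← restrictV, ← restrictV, restrictV_liftV, restrictV_liftV]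
  show schemeHomOverComp _ _ _ = _
  rw [h, L.mul_natural]
  rfl

end FLTAgent.AbVarTors.Bir
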