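import Fermat.Agent.AbVarTors.Birational.Charts

/-!
# Assembly of the birational data

Points in a field, their change of field and the generic point are checked against the axioms of
`AVData`, giving `avData` from a finite system of charts; `exists_avData_aux` chooses the charts
and identifies the torsion points of the scheme with those of the data.
-/

set_option autoImplicit false
set_option linter.style.haveILetI false
set_option linter.unusedSectionVars false
set_option linter.overlappingInstances false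

noncomputable section

open CategoryTheory CategoryTheory.Limits AlgebraicGeometry NeronModelInfra GoodReductionJacobian

universe u

namespace FLTAgent.AbVarTors.Bir

variable {K : Type u} [Field K] {A : Scheme.{u}} {f : A ⟶ Spec (CommRingCat.of K)} [IsIntegral A]
  [IsSeparated f]

section

variable {E : Type u} [Field E] [Algebra K E] {E' : Type u} [Field E'] [Algebra K E']

/-- Extension of scalars of a point. -/
def mapPt (σ : E →ₐ[K] E') (p : SchemeHomOver (tOf (K := K) E) f) :
    SchemeHomOver (tOf (K := K) E') f :=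
  schemeHomOverComp (Spec.map (CommRingCat.ofHom σ.toRingHom))
    (by
      rw [← Spec.map_comp]
      congr 1
      exact CommRingCat.hom_ext (RingHom.ext fun a => σ.commutes a)) p

theorem mapPt_val (σ : E →ₐ[K] E') (p : SchemeHomOver (tOf (K := K) E) f) :
    (mapPt σ p).1 =
      Spec.map (evHom p.1 ≫ CommRingCat.ofHom σ.toRingHom) ≫ A.fromSpecStalk (ptOf p.1) := by
  rw [Spec.map_comp, Category.assoc, specMap_evHom]
  rfl

theorem ptOf_mapPt (σ : E →ₐ[K] E') (p : SchemeHomOver (tOf (K := K) E) f) :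
    ptOf (mapPt σ p).1 = ptOf p.1 :=
  (Scheme.Hom.comp_apply (Spec.map (CommRingCat.ofHom σ.toRingHom)) p.1 _).trans
    (congrArg (fun z : Spec (CommRingCat.of E) => p.1 z)
      (Subsingleton.elim (α := PrimeSpectrum E) _ _))

theorem evPt_mapPt (σ : E →ₐ[K] E') (p : SchemeHomOver (tOf (K := K) E) f) (z : FFun f)
    (h : z ∈ locSub f (ptOf (mapPt σ p).1)) (h' : z ∈ locSub f (ptOf p.1)) :
    evPt (mapPt σ p) ⟨z, h⟩ = σ (evPt p ⟨z, h'⟩) := by
  obtain ⟨s, rfl⟩ := h'
  exact (evPt_factor (mapPt σ p) (mapPt_val σ p) s h).trans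
    (congrArg σ (evPt_factor p (specMap_evHom p.1).symm s _)).symm

theorem isUnit_of_evPt_ne_zero (p : SchemeHomOver (tOf (K := K) E) f)
    (z : locSub f (ptOf p.1)) (hz : evPt p z ≠ 0) : IsUnit z := by
  haveI := isLocalHom_evHom p.1
  have hu : IsUnit (germAt f z.1 z.2) := isUnit_of_map_unit (evHom p.1).hom _ hz.isUnit
  obtain ⟨w, hw⟩ := hu.exists_right_inv
  refine IsUnit.of_mul_eq_one ⟨(toF f _).hom w, ⟨w, rfl⟩⟩ (Subtype.ext ?_)
  show z.1 * (toF f _).hom w = 1
  have h1 := congrArg (toF f (ptOf p.1)).hom hw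
  exact ((congrArg (fun t => t * (toF f _).hom w) (toF_germAt f z.1 z.2)).symm.trans
    (map_mul (toF f _).hom _ _).symm).trans (h1.trans (map_one _))

variable (f) in
/-- The generic point, as a point in the function field. -/
def etaPt : SchemeHomOver (tOf (K := K) (FFun f)) f :=
  ⟨genPt f, by
    rw [tOf, RingHom.algebraMap_toAlgebra, CommRingCat.ofHom_hom, Spec.map_preimage]⟩

theorem ptOf_etaPt : ptOf (etaPt f).1 = genericPoint A :=
  (congrArg (fun z : Spec (A.presheaf.stalk (genericPoint A)) =>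
      (A.fromSpecStalk (genericPoint A)) z)
    (Subsingleton.elim (α := PrimeSpectrum (FFun f)) _ _)).trans
    Scheme.fromSpecStalk_closedPoint

theorem locSub_etaPt : locSub f (ptOf (etaPt f).1) = ⊤ := by
  rw [ptOf_etaPt, eq_top_iff]
  intro z _
  refine ⟨z, ?_⟩
  show (A.presheaf.stalkSpecializes _).hom z = z
  rw [A.presheaf.stalkSpecializes_refl]
  rfl

theorem evPt_etaPt (z : FFun f) (h : z ∈ locSub f (ptOf (etaPt f).1)) :
    evPt (etaPt f) ⟨z, h⟩ = z := by
  obtain ⟨s, hs⟩ := h
  subst hs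
  exact evPt_factor (etaPt f) (specMap_toF f _).symm s _

variable [IsProper f] {k : Type u} [Field k] [Algebra K k]

theorem locSub_specPt_le (R : KRes K E k) (p : SchemeHomOver (tOf (K := K) E) f) :
    locSub f (ptOf (specPt R p).1) ≤ locSub f (ptOf p.1) := by
  obtain ⟨ψ, h₁, -⟩ := exists_specPt_factor R p
  exact locSub_le_of_factor f h₁

theorem evPt_specPt (R : KRes K E k) (p : SchemeHomOver (tOf (K := K) E) f) (z : FFun f)
    (h : z ∈ locSub f (ptOf (specPt R p).1)) (h' : z ∈ locSub f (ptOf p.1)) :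
    ∃ hV : evPt p ⟨z, h'⟩ ∈ R.V, R.π ⟨evPt p ⟨z, h'⟩, hV⟩ = evPt (specPt R p) ⟨z, h⟩ := by
  obtain ⟨ψ, h₁, h₂⟩ := exists_specPt_factor R p
  obtain ⟨s, hs⟩ := id h
  subst hs
  have e₁ := evPt_factor p h₁ s h'
  have e₂ := evPt_factor (specPt R p) h₂ s h
  refine ⟨e₁ ▸ (ψ.hom s).2, ?_⟩
  rw [e₂]
  exact congrArg R.π (Subtype.ext e₁)

theorem specPt_unique (R : KRes K E k) (p : SchemeHomOver (tOf (K := K) E) f)
    (q : SchemeHomOver (tOf (K := K) k) f) (hle : locSub f (ptOf q.1) ≤ locSub f (ptOf p.1))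
    (hev : ∀ z (h : z ∈ locSub f (ptOf q.1)) (h' : z ∈ locSub f (ptOf p.1)),
      ∃ hV : evPt p ⟨z, h'⟩ ∈ R.V, R.π ⟨evPt p ⟨z, h'⟩, hV⟩ = evPt q ⟨z, h⟩) :
    specPt R p = q := by
  have key : ∀ s : A.presheaf.stalk (ptOf q.1),
      ∃ hV : (stalkInc f hle ≫ evHom p.1).hom s ∈ R.V.toSubring,
        R.π ⟨(stalkInc f hle ≫ evHom p.1).hom s, hV⟩ = (evHom q.1).hom s := fun s => by
    obtain ⟨hV, h⟩ := hev ((toF f _).hom s) ⟨s, rfl⟩ (hle ⟨s, rfl⟩)
    refine ⟨hV, h.trans ?_⟩
    exact congrArg (evHom q.1).hom (germAt_eq f rfl)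
  let ψ : A.presheaf.stalk (ptOf q.1) ⟶ CommRingCat.of R.V :=
    CommRingCat.ofHom ((stalkInc f hle ≫ evHom p.1).hom.codRestrict R.V.toSubring
      fun s => (key s).1)
  have hψ : Spec.map (CommRingCat.ofHom R.V.subtype) ≫
      (Spec.map ψ ≫ A.fromSpecStalk (ptOf q.1)) = p.1 := by
    rw [← Category.assoc, ← Spec.map_comp]
    exact (eq_specMap_inc f p.1 hle).symm
  refine Subtype.ext ((specPt_eq R p hψ).trans ?_)
  rw [← Category.assoc, ← Spec.map_comp,
    show ψ ≫ CommRingCat.ofHom R.π = evHom q.1 from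
      CommRingCat.hom_ext (RingHom.ext fun s => (key s).2)]
  exact specMap_evHom q.1

end

variable (L : RelativeGroupLaw K f) (hc : L.IsCommutative)

/-- Points in a field. -/
@[nolint unusedArguments]
def PtType (f : A ⟶ Spec (CommRingCat.of K)) (E : Type u) [Field E] [Algebra K E] : Type u :=
  Additive (SchemeHomOver (tOf (K := K) E) f)

/-- The group of points in a field. -/
@[reducible] def ptGroup (E : Type u) [Field E] [Algebra K E] : AddCommGroup (PtType f E) :=
  @Additive.addCommGroup _ (pointsCommGroup L hc (tOf (K := K) E))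

/-- The point underlying an element of the group. -/
def PtType.pt {E : Type u} [Field E] [Algebra K E] (P : PtType f E) :
    SchemeHomOver (tOf (K := K) E) f := Additive.toMul P

/-- Extension of scalars, on groups. -/
def mapHom {E E' : Type u} [Field E] [Algebra K E] [Field E'] [Algebra K E'] (σ : E →ₐ[K] E') :
    letI := ptGroup L hc E
    letI := ptGroup L hc E'
    PtType f E →+ PtType f E' :=
  letI := ptGroup L hc E
  letI := ptGroup L hc E'
  AddMonoidHom.mk' (fun P => (Additive.ofMul (mapPt σ P.pt) : PtType f E'))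
    fun P Q => L.mul_natural (tOf (K := K) E) (tOf (K := K) E') _ (by
      rw [← Spec.map_comp]
      congr 1
      exact CommRingCat.hom_ext (RingHom.ext fun a => σ.commutes a)) P.pt Q.pt

theorem mapHom_pt {E E' : Type u} [Field E] [Algebra K E] [Field E'] [Algebra K E']
    (σ : E →ₐ[K] E') (P : PtType f E) :
    (letI := ptGroup L hc E
     letI := ptGroup L hc E'
     (mapHom L hc σ P).pt) = mapPt σ P.pt := rfl

variable [IsProper f] {g : ℕ} [SmoothOfRelativeDimension g f] [CompactSpace A]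

/-- The data. -/
def avData (C : Finset (Finset (FFun f)))
    (hC : ∀ S ∈ C, ∃ (U : A.Opens) (_ : IsAffineOpen U) (_ : Nonempty U), IsGensOf f U S ∧
      Algebra.IsStandardSmoothOfRelativeDimension g K (Algebra.adjoin K (S : Set (FFun f))))
    (hcov : ∀ x : A, ∃ S ∈ C, ∀ z ∈ S, z ∈ locSub f x)
    (hfg : (⊤ : IntermediateField K (FFun f)).FG) (htr : Algebra.trdeg K (FFun f) = g) :
    AVData K g where
  F := FFun f
  instField := inferInstance
  instAlgebra := inferInstance
  fg := hfg
  trdeg_eq := htr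
  Pt E _ _ := PtType f E
  instGroup E _ _ := ptGroup L hc E
  map σ := mapHom L hc σ
  map_id {E} _ _ P := Subtype.ext (a1 := (mapPt (AlgHom.id K E) P.pt)) (a2 := P.pt) (by
    show Spec.map (CommRingCat.ofHom (RingHom.id E)) ≫ P.pt.1 = P.pt.1
    rw [CommRingCat.ofHom_id, Spec.map_id, Category.id_comp])
  map_comp σ τ P := Subtype.ext (a1 := mapPt (τ.comp σ) P.pt) (a2 := mapPt τ (mapPt σ P.pt)) (by
    show Spec.map (CommRingCat.ofHom (τ.comp σ).toRingHom) ≫ P.pt.1 =
      Spec.map (CommRingCat.ofHom τ.toRingHom) ≫ Spec.map (CommRingCat.ofHom σ.toRingHom) ≫ P.pt.1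
    rw [← Category.assoc, ← Spec.map_comp]
    rfl)
  loc P := locSub f (ptOf P.pt.1)
  ev P := evPt P.pt
  isUnit_of_ev_ne P z := isUnit_of_evPt_ne_zero P.pt z
  ext h hev := schemeHomOver_ext h hev
  loc_map σ P := congrArg (locSub f) (ptOf_mapPt σ P.pt)
  ev_map σ P z h h' := evPt_mapPt σ P.pt z h h'
  η := Additive.ofMul (etaPt f)
  loc_η := locSub_etaPt
  ev_η z h := evPt_etaPt z h
  spec {E k} _ _ _ _ R :=
    letI := ptGroup L hc E
    letI := ptGroup L hc k
    AddMonoidHom.mk' (fun P => (Additive.ofMul (specPt R P.pt) : PtType f k))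
      fun P Q => specPt_mul L R P.pt Q.pt
  loc_spec_le R P := locSub_specPt_le R P.pt
  ev_spec R P z h h' := evPt_specPt R P.pt z h h'
  spec_unique R P Q hle hev := specPt_unique R P.pt Q.pt hle hev
  charts := C
  cover P := hcov (ptOf P.pt.1)
  chart_smooth S hS := by
    obtain ⟨U, _, _, -, h⟩ := hC S hS
    exact h
  chart_loc P S hS h z hz := by
    obtain ⟨U, hU, hne, hg, -⟩ := hC S hS
    exact hg.loc_eq_frac hU P.pt h z hz
  chart_point S hS φ := by
    obtain ⟨U, hU, hne, hg, -⟩ := hC S hS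
    obtain ⟨p, hp⟩ := hg.exists_point hU φ
    exact ⟨Additive.ofMul p, hp⟩
  chart_spec R P S hS h z hz := by
    obtain ⟨U, hU, hne, hg, -⟩ := hC S hS
    exact hg.mem_locSub_specPt hU R P.pt h hz

include hc in
/-- Birational data with the same torsion points exist. -/
theorem exists_avData_aux :
    ∃ D : AVData K g, ∀ n : ℕ,
      Nat.card {x : SchemeHomOver (𝟙 (Spec (CommRingCat.of K))) f //
        L.IsTorsionPoint (𝟙 (Spec (CommRingCat.of K))) n x} =
      Nat.card {P : D.Pt K // n • P = 0} := by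
  obtain ⟨C, hC, hcov⟩ := exists_charts f g
  obtain ⟨S, hS, -⟩ := hcov (genericPoint A)
  obtain ⟨U, hU, hne, hg, hsm⟩ := hC S hS
  obtain ⟨hfg, htr⟩ := fg_and_trdeg_of_gens f (g := g) hU hg
  refine ⟨avData L hc C hC hcov hfg htr, fun n => ?_⟩
  have key : ∀ t : Spec (CommRingCat.of K) ⟶ Spec (CommRingCat.of K),
      t = 𝟙 _ → Nat.card {x : SchemeHomOver (𝟙 (Spec (CommRingCat.of K))) f //
          L.IsTorsionPoint (𝟙 (Spec (CommRingCat.of K))) n x} =
        Nat.card {x : SchemeHomOver t f // L.IsTorsionPoint t n x} := by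
    rintro _ rfl
    rfl
  refine (key (tOf (K := K) K) ?_).trans (Nat.card_congr (Equiv.subtypeEquiv
    (q := fun P : (avData L hc C hC hcov hfg htr).Pt K => n • P = 0)
    (Additive.ofMul : SchemeHomOver (tOf (K := K) K) f ≃
      Additive (SchemeHomOver (tOf (K := K) K) f)) ?_))
  · rw [tOf, Algebra.algebraMap_self, CommRingCat.ofHom_id, Spec.map_id]
  · intro x
    letI := pointsCommGroup L hc (tOf (K := K) K)
    rw [RelativeGroupLaw.isTorsionPoint_def, nsmul_eq_pow L hc]
    exact Iff.rfl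

end FLTAgent.AbVarTors.Bir
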