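import Mathlib
import Fermat.Agent.AbVarTors.Jacobian

/-!
# Standard smooth algebras over a field

A standard smooth algebra of relative dimension `g` over a field is etale over a polynomial ring in
`g` variables (`exists_etale_mvPolynomial`), hence reduced (`isReduced_of_standardSmooth`), and the
fraction field of a standard smooth domain has transcendence degree `g`
(`trdeg_of_standardSmooth`).
-/

set_option autoImplicit false
set_option linter.style.haveILetI false

noncomputable section

open scoped TensorProduct

universe u

namespace FLTAgent.AbVarTors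

variable {K S : Type u} [Field K] [CommRing S] [Algebra K S] (g : ℕ)

/-- A polynomial ring is standard smooth. -/
theorem isStandardSmooth_mvPolynomial :
    Algebra.IsStandardSmoothOfRelativeDimension g K (MvPolynomial (Fin g) K) := by
  haveI : Algebra.IsStandardSmooth K (MvPolynomial (Fin g) K) :=
    .of_basis_kaehlerDifferential (KaehlerDifferential.mvPolynomialBasis K (Fin g))
      (by rintro _ ⟨i, rfl⟩; exact ⟨MvPolynomial.X i, by simp⟩)
  rw [Algebra.IsStandardSmoothOfRelativeDimension.iff_of_isStandardSmooth,
    rank_eq_card_basis (KaehlerDifferential.mvPolynomialBasis K (Fin g)), Fintype.card_fin]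

/-- A standard smooth algebra is etale over a polynomial ring. -/
theorem exists_etale_mvPolynomial [Nontrivial S]
    [Algebra.IsStandardSmoothOfRelativeDimension g K S] :
    ∃ φ : MvPolynomial (Fin g) K →ₐ[K] S, φ.toRingHom.Etale := by
  classical
  obtain ⟨ι, σ, _, _, P, hP⟩ :=
    Algebra.IsStandardSmoothOfRelativeDimension.out (n := g) (R := K) (S := S)
  have hrk : Module.rank S Ω[S⁄K] = g :=
    Algebra.IsStandardSmoothOfRelativeDimension.rank_kaehlerDifferential g
  haveI := Fintype.ofFinite ι
  rw [rank_eq_card_basis P.basisKaehler, Nat.cast_inj] at hrk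
  let e : Fin g ≃ ((Set.range P.map)ᶜ : Set ι) := (Fintype.equivFinOfCardEq hrk).symm
  let φ : MvPolynomial (Fin g) K →ₐ[K] S := MvPolynomial.aeval fun i => P.val (e i)
  refine ⟨φ, ?_⟩
  letI := φ.toRingHom.toAlgebra
  haveI : IsScalarTower K (MvPolynomial (Fin g) K) S :=
    IsScalarTower.of_algebraMap_eq fun a => (φ.commutes a).symm
  haveI := isStandardSmooth_mvPolynomial (K := K) g
  haveI : Algebra.FormallyUnramified (MvPolynomial (Fin g) K) S := by
    refine ⟨subsingleton_of_forall_eq 0 fun w => ?_⟩
    obtain ⟨v, rfl⟩ := KaehlerDifferential.map_surjective_of_surjective K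
      (MvPolynomial (Fin g) K) S S (fun x => ⟨x, rfl⟩) w
    have key : KaehlerDifferential.map K (MvPolynomial (Fin g) K) S S = 0 := by
      refine P.basisKaehler.ext fun k => ?_
      rw [P.basisKaehler_apply, KaehlerDifferential.map_D, LinearMap.zero_apply]
      obtain ⟨i, rfl⟩ := e.surjective k
      have h : P.val (e i) = algebraMap (MvPolynomial (Fin g) K) S (MvPolynomial.X i) :=
        (MvPolynomial.aeval_X (fun i => P.val (e i)) i).symm
      show KaehlerDifferential.D (MvPolynomial (Fin g) K) S (P.val (e i)) = 0
      rw [h, Derivation.map_algebraMap]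
    rw [key, LinearMap.zero_apply]
  exact etale_of_isStandardSmooth g (R := K)

/-- A standard smooth algebra over a field is reduced. -/
theorem isReduced_of_standardSmooth [Algebra.IsStandardSmoothOfRelativeDimension g K S] :
    IsReduced S := by
  rcases subsingleton_or_nontrivial S with hS | hS
  · exact ⟨fun x _ => Subsingleton.elim x 0⟩
  obtain ⟨φ, hφ⟩ := exists_etale_mvPolynomial (K := K) (S := S) g
  letI := φ.toRingHom.toAlgebra
  haveI : Algebra.Etale (MvPolynomial (Fin g) K) S := hφ
  let L := FractionRing (MvPolynomial (Fin g) K)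
  haveI : IsReduced (L ⊗[MvPolynomial (Fin g) K] S) :=
    Algebra.FormallyUnramified.isReduced_of_field L _
  haveI : Module.Flat (MvPolynomial (Fin g) K) S :=
    Algebra.Smooth.flat (MvPolynomial (Fin g) K) S
  exact isReduced_of_injective (Algebra.TensorProduct.includeRight
      (R := MvPolynomial (Fin g) K) (A := L) (B := S))
    (Algebra.TensorProduct.includeRight_injective (IsFractionRing.injective _ L))

/-- The transcendence degree of the fraction field of a standard smooth domain. -/
theorem trdeg_of_standardSmooth [IsDomain S] [Algebra.IsStandardSmoothOfRelativeDimension g K S]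
    (F : Type u) [Field F] [Algebra K F] [Algebra S F] [IsScalarTower K S F] [IsFractionRing S F] :
    Algebra.trdeg K F = g := by
  obtain ⟨φ, hφ⟩ := exists_etale_mvPolynomial (K := K) (S := S) g
  letI := φ.toRingHom.toAlgebra
  haveI : IsScalarTower K (MvPolynomial (Fin g) K) S :=
    IsScalarTower.of_algebraMap_eq fun a => (φ.commutes a).symm
  haveI : Algebra.Etale (MvPolynomial (Fin g) K) S := hφ
  let L := FractionRing (MvPolynomial (Fin g) K)
  haveI : Module.Flat (MvPolynomial (Fin g) K) S :=
    Algebra.Smooth.flat (MvPolynomial (Fin g) K) S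
  have hinj : Function.Injective (algebraMap (MvPolynomial (Fin g) K) S) := by
    refine (injective_iff_map_eq_zero _).mpr fun a ha => by_contra fun h0 => ?_
    have h := IsSMulRegular.of_flat (S := S)
      (show IsSMulRegular (MvPolynomial (Fin g) K) a from
        (IsRegular.of_ne_zero h0).left.isSMulRegular)
    exact one_ne_zero (α := S) (h (show a • (1 : S) = a • (0 : S) by
      rw [smul_zero, Algebra.smul_def, ha, zero_mul]))
  haveI : FaithfulSMul (MvPolynomial (Fin g) K) S :=
    (faithfulSMul_iff_algebraMap_injective _ _).mpr hinj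
  haveI : FaithfulSMul K (MvPolynomial (Fin g) K) :=
    (faithfulSMul_iff_algebraMap_injective _ _).mpr (algebraMap K _).injective
  haveI : FaithfulSMul K S := (faithfulSMul_iff_algebraMap_injective _ _).mpr
    (algebraMap K S).injective
  haveI : Algebra.IsAlgebraic (MvPolynomial (Fin g) K) S := by
    haveI := Algebra.FormallyUnramified.finite_of_free L (L ⊗[MvPolynomial (Fin g) K] S)
    haveI : Algebra.IsAlgebraic (MvPolynomial (Fin g) K) L :=
      IsLocalization.isAlgebraic _ (nonZeroDivisors _)
    haveI := Algebra.IsAlgebraic.of_finite L (L ⊗[MvPolynomial (Fin g) K] S)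
    refine ⟨fun s => (isAlgebraic_algHom_iff (Algebra.TensorProduct.includeRight
      (R := MvPolynomial (Fin g) K) (A := L) (B := S))
      (Algebra.TensorProduct.includeRight_injective (IsFractionRing.injective _ L))).mp ?_⟩
    exact (Algebra.IsAlgebraic.isAlgebraic (R := L) _).restrictScalars (MvPolynomial (Fin g) K)
  haveI : Algebra.IsAlgebraic S F := IsLocalization.isAlgebraic _ (nonZeroDivisors _)
  haveI : FaithfulSMul S F :=
    (faithfulSMul_iff_algebraMap_injective _ _).mpr (IsFractionRing.injective S F)
  rw [← trdeg_add_eq K (S := S) (A := F), ← trdeg_add_eq K (S := MvPolynomial (Fin g) K) (A := S),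
    MvPolynomial.trdeg_of_isDomain, trdeg_eq_zero, trdeg_eq_zero, add_zero,
    add_zero, Cardinal.mk_fin, Cardinal.lift_natCast]

end FLTAgent.AbVarTors
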